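/-
GATE-C / C4 (G6)-H1 core, part 1 (helper79): Galois-invariant ideals descend outside `S`.

`L/K` Galois extension of number fields, unramified outside `S` (T14 inertia form).  A nonzero
ideal `𝔄` of `𝓞 L` with `σ • 𝔄 = 𝔄` for all `σ ∈ Gal(L/K)` is `𝔞𝓞_L · 𝔟` with `𝔞` an ideal of `𝓞 K`
prime to `S` and `𝔟` supported above `S`.
-/
import Mathlib
import Fermat.Agent.GC.Capit.ClassGroup

set_option autoImplicit false

open NumberField IsDedekindDomain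
open scoped Pointwise

namespace Fermat.Agent.GC.Capit.H1

open Fermat.Agent.GC.Capit

variable (K L : Type*) [Field K] [NumberField K] [Field L] [NumberField L] [Algebra K L]
  [IsGalois K L]

/-- `L/K` is unramified outside `S`: trivial inertia groups at the primes not above `S`
(the T14 form, as produced by `(G8)` and consumed by `second_inequality_of_model`). -/
def UnramOutside (S : Set (Ideal (𝓞 K))) : Prop :=
  ∀ (P : Ideal (𝓞 L)), P.IsPrime → P ≠ ⊥ → P.under (𝓞 K) ∉ S →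
    ∀ τ : L ≃ₐ[K] L, (∀ z : 𝓞 L, τ • z - z ∈ P) → τ = 1

variable {K L}

/-- trivial inertia ⟹ ramification index one. -/
theorem ramificationIdx_eq_one {S : Set (Ideal (𝓞 K))} (hunr : UnramOutside K L S)
    (P : Ideal (𝓞 L)) [P.IsPrime] (hP : P ≠ ⊥) (hPS : P.under (𝓞 K) ∉ S) :
    P.ramificationIdx (𝓞 K) = 1 := by
  have h : P.inertia (L ≃ₐ[K] L) = ⊥ := by
    rw [Subgroup.eq_bot_iff_forall]
    intro τ hτ
    exact hunr P inferInstance hP hPS τ hτ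
  rw [← Ideal.ramificationIdxIn_eq_ramificationIdx (P.under (𝓞 K)) P (L ≃ₐ[K] L),
    ← Ideal.card_inertia_eq_ramificationIdxIn (G := (L ≃ₐ[K] L)) (P.under (𝓞 K)) P, h]
  simp

theorem smul_map_algebraMap (σ : L ≃ₐ[K] L) (𝔞 : Ideal (𝓞 K)) :
    σ • 𝔞.map (algebraMap (𝓞 K) (𝓞 L)) = 𝔞.map (algebraMap (𝓞 K) (𝓞 L)) := by
  rw [Ideal.pointwise_smul_def, Ideal.map_map]
  congr 1
  ext x
  exact congrArg _ (smul_algebraMap σ x)

theorem map_ne_bot_of_ne_bot {𝔞 : Ideal (𝓞 K)} (h : 𝔞 ≠ ⊥) :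
    𝔞.map (algebraMap (𝓞 K) (𝓞 L)) ≠ ⊥ := by
  rwa [Ne, Ideal.map_eq_bot_iff_of_injective (RingOfIntegers.algebraMap.injective K L)]

/-- If an invariant ideal is contained in one prime above `v ∉ S` then it is divisible by `v𝓞_L`. -/
theorem map_dvd_of_le {S : Set (Ideal (𝓞 K))} (hunr : UnramOutside K L S)
    (𝔄 : Ideal (𝓞 L)) (hinv : ∀ σ : L ≃ₐ[K] L, σ • 𝔄 = 𝔄)
    (P₀ : Ideal (𝓞 L)) [P₀.IsPrime] (hP₀ : P₀ ≠ ⊥) (hP₀S : P₀.under (𝓞 K) ∉ S) (hle : 𝔄 ≤ P₀) :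
    (P₀.under (𝓞 K)).map (algebraMap (𝓞 K) (𝓞 L)) ∣ 𝔄 := by
  set v := P₀.under (𝓞 K) with hv
  have hv0 : v ≠ ⊥ := Ideal.under_ne_bot (𝓞 K) hP₀
  have hvmap : v.map (algebraMap (𝓞 K) (𝓞 L)) ≠ ⊥ := map_ne_bot_of_ne_bot hv0
  rw [UniqueFactorizationMonoid.dvd_iff_emultiplicity_le (by rwa [Ne, Ideal.zero_eq_bot] at *)]
  intro Q hQ
  by_cases hdvd : Q ∣ v.map (algebraMap (𝓞 K) (𝓞 L))
  · -- `Q` lies over `v`
    have hQp : Q.IsPrime := Ideal.isPrime_of_prime hQ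
    have hQ0 : Q ≠ ⊥ := hQ.ne_zero
    have hQle : v.map (algebraMap (𝓞 K) (𝓞 L)) ≤ Q := Ideal.le_of_dvd hdvd
    have hvmax : v.IsMaximal := (Ideal.IsPrime.under (𝓞 K) P₀).isMaximal hv0
    have hQv : Q.under (𝓞 K) = v := by
      have h1 : v ≤ Q.under (𝓞 K) := Ideal.map_le_iff_le_comap.1 hQle
      exact (hvmax.eq_of_le (Ideal.IsPrime.under (𝓞 K) Q).ne_top h1).symm
    haveI : Q.LiesOver v := ⟨hQv.symm⟩
    haveI : P₀.LiesOver v := ⟨rfl⟩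
    have he : Q.ramificationIdx (𝓞 K) = 1 :=
      ramificationIdx_eq_one hunr Q hQ0 (by rw [hQv]; exact hP₀S)
    have hmult : multiplicity Q (v.map (algebraMap (𝓞 K) (𝓞 L))) = 1 := by
      rw [← Ideal.IsDedekindDomain.ramificationIdx_eq_multiplicity v Q hvmap, he]
    have hfin : FiniteMultiplicity Q (v.map (algebraMap (𝓞 K) (𝓞 L))) :=
      FiniteMultiplicity.of_prime_left hQ (by rwa [Ne, Ideal.zero_eq_bot] at *)
    rw [hfin.emultiplicity_eq_multiplicity, hmult]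
    -- `𝔄 ≤ Q`
    obtain ⟨σ, hσ⟩ := Ideal.exists_smul_eq_of_isGaloisGroup v P₀ Q (L ≃ₐ[K] L)
    have h𝔄Q : 𝔄 ≤ Q := by
      rw [← hσ, ← hinv σ]
      exact Ideal.pointwise_smul_le_pointwise_smul_iff.2 hle
    have : Q ^ 1 ∣ 𝔄 := by rw [pow_one]; exact Ideal.dvd_iff_le.2 h𝔄Q
    exact_mod_cast le_emultiplicity_of_pow_dvd this
  · rw [emultiplicity_eq_zero.2 hdvd]
    exact zero_le

/-- `𝔞` is prime to `S`: no prime of `S` contains `𝔞`. -/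
def PrimeTo (S : Set (Ideal (𝓞 K))) (𝔞 : Ideal (𝓞 K)) : Prop :=
  ∀ w : Ideal (𝓞 K), w.IsPrime → 𝔞 ≤ w → w ∉ S

theorem primeTo_top (S : Set (Ideal (𝓞 K))) : PrimeTo S (⊤ : Ideal (𝓞 K)) :=
  fun _ hw hle => absurd (top_le_iff.1 hle) hw.ne_top

theorem PrimeTo.mul {S : Set (Ideal (𝓞 K))} {𝔞 𝔞' : Ideal (𝓞 K)} (h : PrimeTo S 𝔞)
    (h' : PrimeTo S 𝔞') : PrimeTo S (𝔞 * 𝔞') := by
  intro w hw hle
  rcases hw.mul_le.1 hle with h1 | h1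
  · exact h w hw h1
  · exact h' w hw h1

/-- **(I1)** A nonzero Galois-invariant ideal of `𝓞 L` is `𝔞𝓞_L · 𝔟` with `𝔞` an ideal of `𝓞 K` prime to
`S` and `𝔟` supported above `S`. -/
theorem exists_descent {S : Set (Ideal (𝓞 K))} (hunr : UnramOutside K L S)
    (𝔄 : Ideal (𝓞 L)) (h0 : 𝔄 ≠ ⊥) (hinv : ∀ σ : L ≃ₐ[K] L, σ • 𝔄 = 𝔄) :
    ∃ (𝔞 : Ideal (𝓞 K)) (𝔟 : Ideal (𝓞 L)), 𝔞 ≠ ⊥ ∧ PrimeTo S 𝔞 ∧
      SupportedOn (primesAbove L S) 𝔟 ∧ 𝔄 = 𝔞.map (algebraMap (𝓞 K) (𝓞 L)) * 𝔟 := by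
  induction 𝔄 using WellFoundedGT.induction with
  | _ 𝔄 ih =>
  by_cases hsupp : SupportedOn (primesAbove L S) 𝔄
  · refine ⟨⊤, 𝔄, top_ne_bot, primeTo_top S, hsupp, ?_⟩
    rw [Ideal.map_top, ← Ideal.one_eq_top, one_mul]
  · unfold SupportedOn at hsupp
    simp only [not_forall, exists_prop] at hsupp
    obtain ⟨P₀, hP₀p, hle, hP₀S⟩ := hsupp
    have hP₀0 : P₀ ≠ ⊥ := fun h => h0 (le_bot_iff.1 (h ▸ hle))
    have hP₀S' : P₀.under (𝓞 K) ∉ S := hP₀S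
    obtain ⟨𝔄', h𝔄'⟩ := map_dvd_of_le hunr 𝔄 hinv P₀ hP₀0 hP₀S' hle
    set v := P₀.under (𝓞 K) with hv
    have hv0 : v ≠ ⊥ := Ideal.under_ne_bot (𝓞 K) hP₀0
    have hvp : v.IsPrime := Ideal.IsPrime.under (𝓞 K) P₀
    have hvmap : v.map (algebraMap (𝓞 K) (𝓞 L)) ≠ ⊥ := map_ne_bot_of_ne_bot hv0
    have h𝔄'0 : 𝔄' ≠ ⊥ := by
      rintro rfl
      rw [Ideal.mul_bot] at h𝔄'
      exact h0 h𝔄'
    have hinv' : ∀ σ : L ≃ₐ[K] L, σ • 𝔄' = 𝔄' := by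
      intro σ
      have h1 := hinv σ
      rw [h𝔄', Ideal.pointwise_smul_def, Ideal.map_mul, ← Ideal.pointwise_smul_def,
        ← Ideal.pointwise_smul_def, smul_map_algebraMap] at h1
      exact mul_left_cancel₀ (by rwa [Ne, Ideal.zero_eq_bot] at *) h1
    have hlt : 𝔄 < 𝔄' := by
      refine lt_of_le_of_ne (h𝔄' ▸ Ideal.mul_le_right) ?_
      intro he
      have h1 : v.map (algebraMap (𝓞 K) (𝓞 L)) * 𝔄' = 1 * 𝔄' := by rw [one_mul, ← h𝔄', he]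
      have h2 : v.map (algebraMap (𝓞 K) (𝓞 L)) = 1 :=
        mul_right_cancel₀ (by rwa [Ne, Ideal.zero_eq_bot] at *) h1
      have h3 : v.map (algebraMap (𝓞 K) (𝓞 L)) ≤ P₀ := Ideal.map_le_iff_le_comap.2 le_rfl
      rw [h2, Ideal.one_eq_top] at h3
      exact hP₀p.ne_top (top_le_iff.1 h3)
    obtain ⟨𝔞', 𝔟, h𝔞'0, h𝔞'S, h𝔟, he⟩ := ih 𝔄' hlt h𝔄'0 hinv'
    refine ⟨v * 𝔞', 𝔟, ?_, ?_, h𝔟, ?_⟩
    · rw [← Ideal.zero_eq_bot] at *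
      exact mul_ne_zero hv0 h𝔞'0
    · refine PrimeTo.mul ?_ h𝔞'S
      intro w hw hle' hwS
      have : v = w := (hvp.isMaximal hv0).eq_of_le hw.ne_top hle'
      exact hP₀S' (this ▸ hwS)
    · rw [h𝔄', he, Ideal.map_mul, mul_assoc]

end Fermat.Agent.GC.Capit.H1
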